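import Fermat.Agent.S24.Ana.Conv.Taylor

/-!
# S24 / B1 / Conv: Taylor coefficients are continuous for locally uniform convergence
-/

set_option autoImplicit false

noncomputable section

namespace Fermat.Agent.S24

open Filter Topology

/-- If `F i → f` locally uniformly on the open set `U` and the `F i` are holomorphic on `U`,
then the iterated derivatives converge locally uniformly on `U`. -/
theorem tendstoLocallyUniformlyOn_iteratedDeriv {ι : Type*} {l : Filter ι} [l.NeBot]
    {F : ι → ℂ → ℂ} {f : ℂ → ℂ} {U : Set ℂ} (hU : IsOpen U)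
    (hF : ∀ᶠ i in l, DifferentiableOn ℂ (F i) U) (h : TendstoLocallyUniformlyOn F f l U) (n : ℕ) :
    TendstoLocallyUniformlyOn (fun i => iteratedDeriv n (F i)) (iteratedDeriv n f) l U ∧
      ∀ᶠ i in l, DifferentiableOn ℂ (iteratedDeriv n (F i)) U := by
  induction n with
  | zero =>
    simp only [iteratedDeriv_zero]
    exact ⟨h, hF⟩
  | succ n ih =>
    obtain ⟨ih1, ih2⟩ := ih
    refine ⟨?_, ?_⟩
    · have key : TendstoLocallyUniformlyOn (deriv ∘ fun i => iteratedDeriv n (F i))
          (deriv (iteratedDeriv n f)) l U := ih1.deriv ih2 hU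
      simp only [iteratedDeriv_succ]
      exact key
    · filter_upwards [ih2] with i hi
      rw [iteratedDeriv_succ]
      exact hi.deriv hU

/-- Taylor coefficients are continuous with respect to locally uniform convergence of
holomorphic functions. -/
theorem taylorAt_coeff_tendsto {ι : Type*} {l : Filter ι} [l.NeBot] {F : ι → ℂ → ℂ} {f : ℂ → ℂ}
    {U : Set ℂ} (hU : IsOpen U) {c : ℂ} (hc : c ∈ U)
    (hF : ∀ᶠ i in l, DifferentiableOn ℂ (F i) U) (h : TendstoLocallyUniformlyOn F f l U) (n : ℕ) :
    Tendsto (fun i => (taylorAt c (F i)).coeff n) l (𝓝 ((taylorAt c f).coeff n)) := by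
  have h1 : Tendsto (fun i => iteratedDeriv n (F i) c) l (𝓝 (iteratedDeriv n f c)) :=
    (tendstoLocallyUniformlyOn_iteratedDeriv hU hF h n).1.tendsto_at hc
  simp only [coeff_taylorAt]
  exact h1.const_mul _

end Fermat.Agent.S24
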