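import Fermat.Agent.S24.Ana.Conv.Taylor
import Fermat.Agent.S24.Ana.Conv.Limit

/-!
# S24 / B1 / Conv: the formal Euler product `etaProd` is the Taylor series of the analytic one
-/

set_option autoImplicit false

noncomputable section

namespace Fermat.Agent.S24

open Filter Topology ModularCurve

/-- Taylor series of a finite partial product. -/
theorem taylorAt_partial_etaProd (M : ℕ) :
    taylorAt 0 (fun q : ℂ => ∏ n ∈ Finset.range M, (1 - q ^ (n + 1))) =
      (∏ n ∈ Finset.range M, (1 - PowerSeries.X ^ (n + 1) : PowerSeries ℤ)).map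
        (Int.castRingHom ℂ) := by
  have hid : AnalyticAt ℂ (fun w : ℂ => w) 0 := analyticAt_id
  have hfac : ∀ n : ℕ, (fun q : ℂ => 1 - q ^ (n + 1)) =
      (fun _ : ℂ => (1 : ℂ)) - (fun w : ℂ => w) ^ (n + 1) := fun n => by
    funext q
    simp
  have han : ∀ n : ℕ, AnalyticAt ℂ (fun q : ℂ => 1 - q ^ (n + 1)) 0 := fun n => by
    rw [hfac n]
    exact analyticAt_const.sub (hid.pow _)
  rw [taylorAt_finset_prod (Finset.range M) (fun (n : ℕ) (q : ℂ) => 1 - q ^ (n + 1))
    (fun n _ => han n), map_prod]
  refine Finset.prod_congr rfl (fun n _ => ?_)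
  rw [hfac n, taylorAt_sub analyticAt_const (hid.pow _), taylorAt_const, taylorAt_pow hid,
    taylorAt_zero_id, map_sub, map_pow, PowerSeries.map_X, map_one, map_one]

open scoped PowerSeries.WithPiTopology in
/-- The formal partial products converge to `etaProd` in the pi topology. -/
theorem Eta.tendsto_partial_etaProd :
    Tendsto (fun M : ℕ => ∏ n ∈ Finset.range M, (1 - PowerSeries.X ^ (n + 1) : PowerSeries ℤ))
      atTop (𝓝 etaProd) :=
  (PowerSeries.WithPiTopology.multipliable_one_sub_X_pow ℤ).hasProd.tendsto_prod_nat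

/-- The coefficients of the formal partial products are eventually those of `etaProd`. -/
theorem coeff_partial_etaProd_tendsto (k : ℕ) :
    Tendsto (fun M : ℕ => ((∏ n ∈ Finset.range M, (1 - PowerSeries.X ^ (n + 1) : PowerSeries ℤ)).map
        (Int.castRingHom ℂ)).coeff k) atTop
      (𝓝 ((etaProd.map (Int.castRingHom ℂ)).coeff k)) := by
  have h2 : Tendsto (fun M : ℕ => PowerSeries.coeff k
      (∏ n ∈ Finset.range M, (1 - PowerSeries.X ^ (n + 1) : PowerSeries ℤ))) atTop
      (𝓝 (PowerSeries.coeff k etaProd)) :=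
    (PowerSeries.WithPiTopology.tendsto_iff_coeff_tendsto ℤ _ _ _).mp
      Eta.tendsto_partial_etaProd k
  have h3 : Continuous (fun n : ℤ => (Int.castRingHom ℂ) n) := continuous_of_discreteTopology
  simp only [PowerSeries.coeff_map]
  exact (h3.tendsto _).comp h2

/-- **Formal = analytic Euler product**: the Taylor series at `0` of `q ↦ ∏ (1 - q^(n+1))`
is the Prelude's formal product `etaProd` (with coefficients mapped to `ℂ`). -/
theorem taylorAt_etaProd :
    taylorAt 0 (fun q : ℂ => ∏' n : ℕ, (1 - q ^ (n + 1))) = etaProd.map (Int.castRingHom ℂ) := by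
  ext k
  have hloc : TendstoLocallyUniformlyOn
      (fun (M : ℕ) (q : ℂ) => ∏ n ∈ Finset.range M, (1 - q ^ (n + 1)))
      (fun q : ℂ => ∏' n : ℕ, (1 - q ^ (n + 1))) atTop (Metric.ball (0 : ℂ) 1) :=
    (ModularForm.multipliableLocallyUniformlyOn_one_sub_pow
      ).hasProdLocallyUniformlyOn.tendstoLocallyUniformlyOn_finsetRange
  have hF : ∀ᶠ M : ℕ in atTop, DifferentiableOn ℂ
      (fun q : ℂ => ∏ n ∈ Finset.range M, (1 - q ^ (n + 1))) (Metric.ball (0 : ℂ) 1) :=
    Eventually.of_forall fun M => DifferentiableOn.fun_finsetProd (fun n _ => by fun_prop)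
  have h3 := taylorAt_coeff_tendsto Metric.isOpen_ball (Metric.mem_ball_self one_pos) hF hloc k
  simp only [taylorAt_partial_etaProd] at h3
  exact tendsto_nhds_unique h3 (coeff_partial_etaProd_tendsto k)

end Fermat.Agent.S24
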