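import Fermat.Agent.S24.Ana.Defs

/-!
# S24 / B1 / Conv: Taylor series of an analytic function as a formal power series

`taylorAt c f : ℂ⟦X⟧` is the Taylor series of `f` at `c`.  On functions analytic at `c` it is a
ring homomorphism; its order is the order of vanishing; for functions holomorphic on the open
unit disc the Taylor series at `0` converges to the function on the whole disc.
-/

set_option autoImplicit false

noncomputable section

namespace Fermat.Agent.S24

open Filter Topology

/-- Taylor series of `f` at `c`, as a formal power series. -/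
def taylorAt (c : ℂ) (f : ℂ → ℂ) : PowerSeries ℂ :=
  PowerSeries.mk fun n => ((n.factorial : ℂ))⁻¹ * iteratedDeriv n f c

theorem coeff_taylorAt (c : ℂ) (f : ℂ → ℂ) (n : ℕ) :
    (taylorAt c f).coeff n = ((n.factorial : ℂ))⁻¹ * iteratedDeriv n f c := by
  simp [taylorAt]

theorem taylorAt_congr {c : ℂ} {f g : ℂ → ℂ} (h : f =ᶠ[𝓝 c] g) : taylorAt c f = taylorAt c g := by
  ext n
  rw [coeff_taylorAt, coeff_taylorAt, h.iteratedDeriv_eq n]

theorem taylorAt_const (c a : ℂ) : taylorAt c (fun _ => a) = PowerSeries.C a := by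
  ext n
  rw [coeff_taylorAt, iteratedDeriv_const, PowerSeries.coeff_C]
  split_ifs with h
  · subst h
    simp
  · simp

theorem taylorAt_add {c : ℂ} {f g : ℂ → ℂ} (hf : AnalyticAt ℂ f c) (hg : AnalyticAt ℂ g c) :
    taylorAt c (f + g) = taylorAt c f + taylorAt c g := by
  ext n
  simp only [coeff_taylorAt, iteratedDeriv_add hf.contDiffAt hg.contDiffAt, mul_add, map_add]

set_option linter.unusedVariables false in
theorem taylorAt_neg {c : ℂ} {f : ℂ → ℂ} (hf : AnalyticAt ℂ f c) :
    taylorAt c (-f) = -taylorAt c f := by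
  ext n
  simp only [coeff_taylorAt, iteratedDeriv_neg, mul_neg, map_neg]

theorem taylorAt_sub {c : ℂ} {f g : ℂ → ℂ} (hf : AnalyticAt ℂ f c) (hg : AnalyticAt ℂ g c) :
    taylorAt c (f - g) = taylorAt c f - taylorAt c g := by
  ext n
  simp only [coeff_taylorAt, iteratedDeriv_sub hf.contDiffAt hg.contDiffAt, mul_sub, map_sub]

theorem taylorAt_mul {c : ℂ} {f g : ℂ → ℂ} (hf : AnalyticAt ℂ f c) (hg : AnalyticAt ℂ g c) :
    taylorAt c (f * g) = taylorAt c f * taylorAt c g := by
  ext n
  simp only [coeff_taylorAt, iteratedDeriv_mul hf.contDiffAt hg.contDiffAt, Finset.mul_sum,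
    PowerSeries.coeff_mul, Finset.Nat.sum_antidiagonal_eq_sum_range_succ_mk, Nat.succ_eq_add_one]
  refine Finset.sum_congr rfl fun i hi => ?_
  have hi' : i ≤ n := Nat.lt_succ_iff.mp (Finset.mem_range.mp hi)
  rw [Nat.cast_choose ℂ hi']
  have h1 : (n.factorial : ℂ) ≠ 0 := Nat.cast_ne_zero.mpr (Nat.factorial_ne_zero n)
  have h2 : (i.factorial : ℂ) ≠ 0 := Nat.cast_ne_zero.mpr (Nat.factorial_ne_zero i)
  have h3 : ((n - i).factorial : ℂ) ≠ 0 := Nat.cast_ne_zero.mpr (Nat.factorial_ne_zero (n - i))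
  field_simp

theorem taylorAt_pow {c : ℂ} {f : ℂ → ℂ} (hf : AnalyticAt ℂ f c) (n : ℕ) :
    taylorAt c (f ^ n) = taylorAt c f ^ n := by
  induction n with
  | zero =>
    rw [pow_zero, pow_zero]
    exact (taylorAt_const c 1).trans (map_one _)
  | succ n ih =>
    rw [pow_succ, taylorAt_mul (hf.pow n) hf, ih, pow_succ]

theorem taylorAt_finset_prod {ι : Type*} (s : Finset ι) {c : ℂ} (f : ι → ℂ → ℂ)
    (hf : ∀ i ∈ s, AnalyticAt ℂ (f i) c) :
    taylorAt c (fun w => ∏ i ∈ s, f i w) = ∏ i ∈ s, taylorAt c (f i) := by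
  classical
  induction s using Finset.induction_on with
  | empty =>
    simp only [Finset.prod_empty]
    exact (taylorAt_const c 1).trans (map_one _)
  | insert a s ha ih =>
    have hs : ∀ i ∈ s, AnalyticAt ℂ (f i) c := fun i hi => hf i (Finset.mem_insert_of_mem hi)
    have h1 : (fun w => ∏ i ∈ insert a s, f i w) = f a * (fun w => ∏ i ∈ s, f i w) := by
      funext w
      simp [Finset.prod_insert ha]
    rw [h1, taylorAt_mul (hf a (Finset.mem_insert_self a s)) (s.analyticAt_fun_prod hs), ih hs,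
      Finset.prod_insert ha]

/-- The Taylor series at `0` of the identity is `X`. -/
theorem taylorAt_zero_id : taylorAt 0 (fun w : ℂ => w) = PowerSeries.X := by
  ext n
  rw [coeff_taylorAt, iteratedDeriv_fun_id_zero, PowerSeries.coeff_X]
  split_ifs with h
  · subst h
    simp
  · simp

/-- The order of the Taylor series is the order of vanishing. -/
theorem order_taylorAt {c : ℂ} {f : ℂ → ℂ} (hf : AnalyticAt ℂ f c) :
    (taylorAt c f).order = analyticOrderAt f c := by
  refine ENat.eq_of_forall_natCast_le_iff fun n => ?_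
  rw [natCast_le_analyticOrderAt_iff_iteratedDeriv_eq_zero hf]
  constructor
  · intro h i hi
    have h1 : (taylorAt c f).coeff i = 0 :=
      PowerSeries.coeff_of_lt_order i (lt_of_lt_of_le (by exact_mod_cast hi) h)
    rw [coeff_taylorAt] at h1
    have h2 : ((i.factorial : ℂ))⁻¹ ≠ 0 :=
      inv_ne_zero (Nat.cast_ne_zero.mpr (Nat.factorial_ne_zero i))
    exact (mul_eq_zero.mp h1).resolve_left h2
  · intro h
    refine PowerSeries.nat_le_order _ _ fun i hi => ?_
    rw [coeff_taylorAt, h i hi, mul_zero]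

theorem taylorAt_eq_zero_iff {c : ℂ} {f : ℂ → ℂ} (hf : AnalyticAt ℂ f c) :
    taylorAt c f = 0 ↔ ∀ᶠ w in 𝓝 c, f w = 0 := by
  rw [← PowerSeries.order_eq_top, order_taylorAt hf, analyticOrderAt_eq_top]

/-- For `f` holomorphic on the open unit disc, the Taylor series at `0` converges to `f` on the
whole disc. -/
theorem taylorAt_zero_hasSum {f : ℂ → ℂ} (hf : DifferentiableOn ℂ f (Metric.ball 0 1)) {q : ℂ}
    (hq : ‖q‖ < 1) : HasSum (fun n : ℕ => (taylorAt 0 f).coeff n * q ^ n) (f q) := by
  have hq' : q ∈ Metric.ball (0 : ℂ) 1 := by simpa using hq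
  have h := Complex.hasSum_taylorSeries_on_ball hf hq'
  have hfun : (fun n : ℕ => (taylorAt 0 f).coeff n * q ^ n) =
      fun n : ℕ => ((n.factorial : ℂ))⁻¹ • (q - 0) ^ n • iteratedDeriv n f 0 := by
    funext n
    rw [coeff_taylorAt, sub_zero, smul_eq_mul, smul_eq_mul]
    ring
  rw [hfun]
  exact h

end Fermat.Agent.S24
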